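/-
MAZ / T1B-U, brick (TORS) = row 738, part (TORS-a) (helper22): AN INTEGRAL TWO-CHART CURVE OF GENUS `0`
WITH ONLY CONSTANT GLOBAL FUNCTIONS HAS NO NONTRIVIAL LINE OF DEGREE `0`.

`c' : TwoChart K C0 C1 C01` over a field `K`, charts domains, finite projective over the line
(`hc' : c'.FiniteProjOverLine`), `H⁰(O) = K` (`Red68.H0Const c'`) and `H¹(O) = 0`.  Then

* `exists_section_ne_zero`       : a line `L` with `χ(L) ≥ 1` has a nonzero global section;
* `nonempty_iso_unit_of_chi_eq`  : a line `L` with `χ(L) = χ(O)` is trivial (`O ≅ L`);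
* `deg0_eq_bot`                  : `Bal60.deg0 c' hc' = ⊥`;
* `mem_deg0_iff_eq_one`, and the `finrank` variants of the genus-`0` hypothesis
  (`subsingleton_H1_of_finrank`, `subsingleton_H1_of_chiField`).

Proof: `h⁰(L) ≥ χ(L) = χ(O) = h⁰(O) - h¹(O) = h⁰(O) ≥ 1`, so `L` has a section `σ ≠ 0`; the dual has
degree `0` as well, so it has a section `τ ≠ 0`; the pairing `τ(σ)` is a nonzero global function
(the charts are domains and `L` has rank one), hence a nonzero constant, hence a unit on both charts,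
and `σ : O → L` is an isomorphism (`Red68.nonempty_iso_unit_of_section`).
-/
import Mathlib
import Fermat.Agent.T1B.Bal60.Main
import Fermat.Agent.T1.Red68.Descent
import Fermat.Agent.Jac.DegAdd79
import Fermat.Agent.Jac.AbelJacobi73.Effective

set_option autoImplicit false
set_option linter.unusedSectionVars false
set_option linter.style.haveILetI false

open TensorProduct

namespace Fermat.Agent.MAZ.PicFin22

open Fermat.Agent.Jac Fermat.Agent.Jac.LineOps39 Fermat.Agent.Jac.JGroup85Pic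
open Fermat.Agent.Jac.JGroup85Euler Fermat.Agent.Jac.DegAdd79 Fermat.Agent.T1.Red68

universe u

variable {K C0 C1 C01 : Type u} [Field K] [CommRing C0] [CommRing C1] [CommRing C01]
  [Algebra K C0] [Algebra K C1] [Algebra K C01] [Algebra C0 C01] [Algebra C1 C01]
  [IsScalarTower K C0 C01] [IsScalarTower K C1 C01]
  [IsDomain C0] [IsDomain C1] [Nontrivial C01]

/-! ### Linear forms on invertible modules over a domain -/

/-- A nonzero linear form on an invertible module over a domain does not vanish at a nonzero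
element. -/
theorem dual_apply_ne_zero {R N : Type*} [CommRing R] [IsDomain R] [AddCommGroup N] [Module R N]
    [Module.Invertible R N] {φ : N →ₗ[R] R} (hφ : φ ≠ 0) {x : N} (hx : x ≠ 0) : φ x ≠ 0 := by
  intro h0
  apply hφ
  ext y
  have h1 := DegAdd79Alg.dual_smul_comm φ x y
  rw [h0, zero_smul] at h1
  have h2 : (LinearMap.toSpanSingleton R N x) (φ y) = (LinearMap.toSpanSingleton R N x) 0 := by
    rw [LinearMap.toSpanSingleton_apply, LinearMap.toSpanSingleton_apply, zero_smul, ← h1]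
  exact DegAdd79Alg.toSpanSingleton_injective x hx h2

/-! ### Sections -/

variable (c' : TwoChart K C0 C1 C01) (hc' : c'.FiniteProjOverLine)

include hc' in
/-- A line with positive Euler characteristic has a nonzero global section. -/
theorem exists_section_ne_zero {L : QC2 K C0 C1 C01} (hL : L.IsLine)
    (hχ : 1 ≤ L.chiField K) : ∃ σ : L.H0, σ ≠ 0 := by
  obtain ⟨h0, h1⟩ := finiteDimensional_of_isLine c' hc' hL
  rw [chiField_eq_eulerChar, eulerChar] at hχ
  have hpos : 0 < Module.finrank K (LinearMap.ker L.d) := by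
    have : (0 : ℤ) ≤ (Module.finrank K (L.N01 ⧸ LinearMap.range L.d) : ℤ) := Int.natCast_nonneg _
    have h2 : (1 : ℤ) ≤ (Module.finrank K (LinearMap.ker L.d) : ℤ) := by linarith
    exact_mod_cast h2
  obtain ⟨σ, hσ⟩ := Module.finrank_pos_iff_exists_ne_zero.1 hpos
  exact ⟨σ, hσ⟩

/-- The Euler characteristic of the structure sheaf is at least `1` when `H¹(O) = 0`. -/
theorem one_le_chiField_unit
    (hfd : FiniteDimensional K (LinearMap.ker (QC2.unit : QC2 K C0 C1 C01).d))
    (hH1 : Subsingleton (QC2.unit : QC2 K C0 C1 C01).H1) :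
    1 ≤ (QC2.unit : QC2 K C0 C1 C01).chiField K := by
  rw [chiField_eq_eulerChar, eulerChar]
  have h1 : Module.finrank K
      ((QC2.unit : QC2 K C0 C1 C01).N01 ⧸ LinearMap.range (QC2.unit : QC2 K C0 C1 C01).d) = 0 :=
    Module.finrank_zero_of_subsingleton
  have hone : (((1 : C0), (1 : C1)) : (QC2.unit : QC2 K C0 C1 C01).N0 ×
      (QC2.unit : QC2 K C0 C1 C01).N1) ∈ (QC2.unit : QC2 K C0 C1 C01).H0 := by
    refine (mem_H0_iff _ _).2 ?_
    show algebraMap C0 C01 1 = algebraMap C1 C01 1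
    rw [map_one, map_one]
  have hpos : 0 < Module.finrank K (LinearMap.ker (QC2.unit : QC2 K C0 C1 C01).d) := by
    apply Module.finrank_pos_iff_exists_ne_zero.2
    refine ⟨⟨_, hone⟩, ?_⟩
    intro h
    have h2 : (1 : C0) = 0 :=
      congrArg (fun z : (QC2.unit : QC2 K C0 C1 C01).H0 => (show C0 from z.1.1)) h
    exact one_ne_zero h2
  rw [h1]
  have : (1 : ℤ) ≤ (Module.finrank K (LinearMap.ker (QC2.unit : QC2 K C0 C1 C01).d) : ℤ) := by
    exact_mod_cast hpos
  simpa using this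

include hc' in
/-- **(TORS-a), module form**: on an integral two-chart curve with `H⁰(O) = K`, `H¹(O) = 0`, a line
of degree `0` is trivial. -/
theorem nonempty_iso_unit_of_chi_eq (hconst : H0Const c')
    (hH1 : Subsingleton (QC2.unit : QC2 K C0 C1 C01).H1)
    {L : QC2 K C0 C1 C01} (hL : L.IsLine)
    (hχ : L.chiField K = (QC2.unit : QC2 K C0 C1 C01).chiField K) :
    Nonempty (QC2.Iso (QC2.unit : QC2 K C0 C1 C01) L) := by
  haveI : IsDomain C01 := isDomain_R01 c'
  have hfd := (finiteDimensional_of_isLine c' hc' (isLine_unit : (QC2.unit : QC2 K C0 C1 C01).IsLine)).1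
  have hO : 1 ≤ (QC2.unit : QC2 K C0 C1 C01).chiField K := one_le_chiField_unit hfd hH1
  have hLd : (dual c' L (isVB_of_isLine hL)).IsLine := isLine_dual c' hL
  obtain ⟨σ, hσ⟩ := exists_section_ne_zero c' hc' hL (by rw [hχ]; exact hO)
  obtain ⟨τ, hτ⟩ := exists_section_ne_zero c' hc' hLd
    (by rw [chiField_dual_eq_unit c' hc' hL hχ]; exact hO)
  have hσ0 : σ.1.1 ≠ 0 := AbelJacobi73.section_fst_ne_zero c' L hL σ hσ
  have hσ1 : σ.1.2 ≠ 0 := AbelJacobi73.section_snd_ne_zero c' L hL σ hσ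
  have hτ0 : τ.1.1 ≠ 0 := AbelJacobi73.section_fst_ne_zero c' _ hLd τ hτ
  have hτ1 : τ.1.2 ≠ 0 := AbelJacobi73.section_snd_ne_zero c' _ hLd τ hτ
  haveI := hL.inv0
  haveI := hL.inv1
  have hp0 : pair0 c' hL σ τ ≠ 0 :=
    dual_apply_ne_zero (φ := (show Module.Dual C0 L.N0 from τ.1.1)) hτ0 hσ0
  have hp1 : pair1 c' hL σ τ ≠ 0 :=
    dual_apply_ne_zero (φ := (show Module.Dual C1 L.N1 from τ.1.2)) hτ1 hσ1
  obtain ⟨a, ha0, ha1⟩ := hconst _ _ (pair_compat c' hL σ τ)
  have ha : a ≠ 0 := by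
    rintro rfl
    rw [map_zero] at ha0
    exact hp0 ha0.symm
  have hu0 : IsUnit (pair0 c' hL σ τ) := by
    rw [← ha0]
    exact (IsUnit.mk0 a ha).map (algebraMap K C0)
  have hu1 : IsUnit (pair1 c' hL σ τ) := by
    rw [← ha1]
    exact (IsUnit.mk0 a ha).map (algebraMap K C1)
  exact nonempty_iso_unit_of_section L hL σ (show Module.Dual C0 L.N0 from τ.1.1)
    (show Module.Dual C1 L.N1 from τ.1.2) hu0 hu1

/-- **(TORS-a)**: on an integral two-chart curve of genus `0` (`H⁰(O) = K`, `H¹(O) = 0`), the group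
of classes of degree `0` is trivial. -/
theorem deg0_eq_bot (hconst : H0Const c')
    (hH1 : Subsingleton (QC2.unit : QC2 K C0 C1 C01).H1) :
    Fermat.Agent.T1B.Bal60.deg0 c' hc' = ⊥ := by
  rw [eq_bot_iff]
  intro x hx
  obtain ⟨L, hL, rfl⟩ := LinePic.exists_rep x
  rw [Fermat.Agent.T1B.Bal60.mk_mem_deg0] at hx
  obtain ⟨φ⟩ := nonempty_iso_unit_of_chi_eq c' hc' hconst hH1 hL hx
  rw [Subgroup.mem_bot, LinePic.one_def]
  exact (LinePic.mk_eq_mk isLine_unit hL φ).symm

theorem mem_deg0_iff_eq_one (hconst : H0Const c')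
    (hH1 : Subsingleton (QC2.unit : QC2 K C0 C1 C01).H1) (x : LinePic c') :
    x ∈ Fermat.Agent.T1B.Bal60.deg0 c' hc' ↔ x = 1 := by
  rw [deg0_eq_bot c' hc' hconst hH1, Subgroup.mem_bot]

/-! ### Variants of the genus-`0` hypothesis -/

/-- `H¹(O) = 0` from `dim H¹(O) = 0` (finite-dimensionality is automatic). -/
theorem subsingleton_H1_of_finrank
    (hfd : FiniteDimensional K (QC2.unit : QC2 K C0 C1 C01).H1)
    (h : Module.finrank K (QC2.unit : QC2 K C0 C1 C01).H1 = 0) :
    Subsingleton (QC2.unit : QC2 K C0 C1 C01).H1 :=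
  Module.finrank_zero_iff.1 h

include hc' in
/-- `H¹(O) = 0` from `χ(O) = 1` and `H⁰(O) = K`. -/
theorem subsingleton_H1_of_chiField (hconst : H0Const c')
    (hχ : (QC2.unit : QC2 K C0 C1 C01).chiField K = 1) :
    Subsingleton (QC2.unit : QC2 K C0 C1 C01).H1 := by
  obtain ⟨h0, h1⟩ := finiteDimensional_of_isLine c' hc'
    (isLine_unit : (QC2.unit : QC2 K C0 C1 C01).IsLine)
  rw [chiField_eq_eulerChar, eulerChar] at hχ
  -- `H⁰(O) = K` has dimension at most one
  have hle : Module.finrank K (LinearMap.ker (QC2.unit : QC2 K C0 C1 C01).d) ≤ 1 := by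
    have hmem : ∀ a : K, (((algebraMap K C0 a, algebraMap K C1 a)) :
        (QC2.unit : QC2 K C0 C1 C01).N0 × (QC2.unit : QC2 K C0 C1 C01).N1) ∈
        LinearMap.ker (QC2.unit : QC2 K C0 C1 C01).d := by
      intro a
      refine (mem_H0_iff (QC2.unit : QC2 K C0 C1 C01) _).2 ?_
      show algebraMap C0 C01 (algebraMap K C0 a) = algebraMap C1 C01 (algebraMap K C1 a)
      rw [← IsScalarTower.algebraMap_apply, ← IsScalarTower.algebraMap_apply]
    let g : K →ₗ[K] ((QC2.unit : QC2 K C0 C1 C01).N0 × (QC2.unit : QC2 K C0 C1 C01).N1) :=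
      (Algebra.linearMap K C0).prod (Algebra.linearMap K C1)
    let f : K →ₗ[K] (LinearMap.ker (QC2.unit : QC2 K C0 C1 C01).d) :=
      g.codRestrict _ hmem
    have hf : Function.Surjective f := by
      rintro ⟨⟨x0, x1⟩, hx⟩
      have hx' := (mem_H0_iff (QC2.unit : QC2 K C0 C1 C01) _).1 hx
      obtain ⟨a, ha0, ha1⟩ := hconst x0 x1 hx'
      exact ⟨a, Subtype.ext (Prod.ext ha0 ha1)⟩
    have h5 := LinearMap.finrank_le_finrank_of_surjective hf
    rwa [Module.finrank_self] at h5
  have h3 : Module.finrank K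
      ((QC2.unit : QC2 K C0 C1 C01).N01 ⧸ LinearMap.range (QC2.unit : QC2 K C0 C1 C01).d) = 0 := by
    have : ((Module.finrank K (LinearMap.ker (QC2.unit : QC2 K C0 C1 C01).d) : ℕ) : ℤ) ≤ 1 := by
      exact_mod_cast hle
    have h4 : ((Module.finrank K ((QC2.unit : QC2 K C0 C1 C01).N01 ⧸
        LinearMap.range (QC2.unit : QC2 K C0 C1 C01).d) : ℕ) : ℤ) ≤ 0 := by linarith
    exact_mod_cast le_antisymm (by exact_mod_cast h4) (Nat.zero_le _)
  exact Module.finrank_zero_iff.1 h3

end Fermat.Agent.MAZ.PicFin22
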