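/-
MAZ / T1B-U, brick (TORS) = row 738, part (T) (helper22): THE TORUS KERNEL OVER A FINITE FIELD IS TORSION.

On helper85's vocabulary (`T1B/Torus85`): `c : TwoChart κ A0 A1 A01` a two-chart curve over a field,
`X`, `Y` two closed subschemes covering `c` (`I_X I_Y = 0`), with only constant global functions.
If the NODE RINGS `A0 ⧸ (I_X0 ⊔ I_Y0)`, `A1 ⧸ (I_X1 ⊔ I_Y1)` are FINITE (true when `κ` is finite:
the scheme of nodes is finite over `κ`), then every class `x : LinePic c` which is trivial along `X`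
and along `Y` (as well as its inverse: automatic in the `LinePic.bc` form) has finite order:

* `exists_pow_eq_one_of_trivOn`  (abstract `Closed` form);
* `exists_pow_eq_one_of_bc`      (`LinePic.bc` form, two closed sub-curves given by surjective cubes);
* `exists_pow_eq_one_of_bc_of_finite` : the same with `[Finite κ]` and `κ`-finite node rings.

Proof: the node function `u` of `x` (`Torus85.RelClass`) is a unit of the node ring (the node
function of `x⁻¹` is an inverse up to a constant), `u ^ h ≡ 1` for `h` the product of the orders of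
the two finite unit groups, and a class with constant node function is trivial
(`Torus85.RelClass.eq_one_iff`).
-/
import Mathlib
import Fermat.Agent.T1B.Torus85.Bridge

set_option autoImplicit false
set_option linter.unusedSectionVars false
set_option linter.style.haveILetI false

open TensorProduct

namespace Fermat.Agent.MAZ.PicFin22

open Fermat.Agent.Jac Fermat.Agent.Jac.LineOps39 Fermat.Agent.Jac.JGroup85Pic
open Fermat.Agent.Jac.JSmooth85Alg Fermat.Agent.Jac.BaseChange75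
open Fermat.Agent.T1B.Torus85

universe u

/-! ### Ring lemma -/

/-- In a finite quotient ring, an element invertible up to a unit has a power congruent to `1`. -/
theorem exists_pow_sub_one_mem {R : Type*} [CommRing R] (J : Ideal R) [Finite (R ⧸ J)]
    {u v w w' : R} (hw : w * w' = 1) (huv : u * v - w ∈ J) :
    (u ^ Nat.card (R ⧸ J)ˣ - 1 ∈ J) ∧ 0 < Nat.card (R ⧸ J)ˣ := by
  have hpos : 0 < Nat.card (R ⧸ J)ˣ := Nat.card_pos
  refine ⟨?_, hpos⟩
  have h1 : Ideal.Quotient.mk J u * (Ideal.Quotient.mk J v * Ideal.Quotient.mk J w') = 1 := by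
    rw [← mul_assoc, ← map_mul, ← map_mul, ← map_one (Ideal.Quotient.mk J), ← hw]
    rw [Ideal.Quotient.eq, ← sub_mul]
    exact J.mul_mem_right _ huv
  let U : (R ⧸ J)ˣ := Units.mkOfMulEqOne _ _ h1
  have hU : U ^ Nat.card (R ⧸ J)ˣ = 1 := pow_card_eq_one'
  have h2 : (Ideal.Quotient.mk J u) ^ Nat.card (R ⧸ J)ˣ = 1 := by
    have h3 : ((U ^ Nat.card (R ⧸ J)ˣ : (R ⧸ J)ˣ) : R ⧸ J) = 1 := by rw [hU]; rfl
    rw [Units.val_pow_eq_pow_val] at h3
    exact h3
  rw [← map_pow, ← map_one (Ideal.Quotient.mk J), Ideal.Quotient.eq] at h2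
  exact h2

/-- Powers of an element congruent to `1`. -/
theorem pow_sub_one_mem {R : Type*} [CommRing R] (J : Ideal R) {a : R} (h : a - 1 ∈ J) (n : ℕ) :
    a ^ n - 1 ∈ J := by
  induction n with
  | zero => simp
  | succ n ih =>
    have : a ^ (n + 1) - 1 = a ^ n * (a - 1) + (a ^ n - 1) := by ring
    rw [this]
    exact add_mem (J.mul_mem_left _ h) ih

/-! ### The abstract form -/

section Abstract

variable {κ A0 A1 A01 : Type u} [Field κ] [CommRing A0] [CommRing A1] [CommRing A01]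
  [Algebra κ A0] [Algebra κ A1] [Algebra κ A01] [Algebra A0 A01] [Algebra A1 A01]
  [IsScalarTower κ A0 A01] [IsScalarTower κ A1 A01]
  {X Y : Closed A0 A1 A01} {c : TwoChart κ A0 A1 A01}

/-- **The torus kernel is torsion when the node rings are finite** (abstract form). -/
theorem exists_pow_eq_one_of_trivOn
    [Finite (A0 ⧸ (X.I0 ⊔ Y.I0))] [Finite (A1 ⧸ (X.I1 ⊔ Y.I1))]
    (hXc : X.H0Const κ) (hYc : Y.H0Const κ) (hX0 : X.I0 ≠ ⊤) (hY0 : Y.I0 ≠ ⊤)
    (h0 : X.I0 * Y.I0 = ⊥) (h1 : X.I1 * Y.I1 = ⊥) (h01 : X.I01 ⊓ Y.I01 = ⊥)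
    {x : LinePic c} (hX : X.TrivOnClass c x) (hY : Y.TrivOnClass c x)
    (hX' : X.TrivOnClass c x⁻¹) (hY' : Y.TrivOnClass c x⁻¹) :
    ∃ h : ℕ, 0 < h ∧ x ^ h = 1 := by
  obtain ⟨u0, u1, hu⟩ := exists_relClass hX hY
  obtain ⟨v0, v1, hv⟩ := exists_relClass hX' hY'
  have huv := hu.mul hv
  rw [mul_inv_cancel] at huv
  obtain ⟨d, hd, hd0, hd1⟩ := huv.rel_unit.const_of_unit hXc hYc hX0 hY0
  have hw0 : algebraMap κ A0 d * algebraMap κ A0 d⁻¹ = 1 := by
    rw [← map_mul, mul_inv_cancel₀ hd, map_one]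
  have hw1 : algebraMap κ A1 d * algebraMap κ A1 d⁻¹ = 1 := by
    rw [← map_mul, mul_inv_cancel₀ hd, map_one]
  obtain ⟨k0, n0pos⟩ := exists_pow_sub_one_mem (X.I0 ⊔ Y.I0) hw0 hd0
  obtain ⟨k1, n1pos⟩ := exists_pow_sub_one_mem (X.I1 ⊔ Y.I1) hw1 hd1
  set n0 := Nat.card (A0 ⧸ (X.I0 ⊔ Y.I0))ˣ with hn0
  set n1 := Nat.card (A1 ⧸ (X.I1 ⊔ Y.I1))ˣ with hn1
  have hpos : 0 < n0 * n1 := Nat.mul_pos n0pos n1pos
  refine ⟨n0 * n1, hpos, ?_⟩
  have e0 : u0 ^ (n0 * n1) - 1 ∈ X.I0 ⊔ Y.I0 := by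
    rw [pow_mul]
    exact pow_sub_one_mem _ k0 n1
  have e1 : u1 ^ (n0 * n1) - 1 ∈ X.I1 ⊔ Y.I1 := by
    rw [mul_comm, pow_mul]
    exact pow_sub_one_mem _ k1 n0
  have hpow := hu.pow (n0 * n1 - 1)
  rw [Nat.sub_add_cancel hpos] at hpow
  refine (hpow.eq_one_iff hXc hYc hX0 hY0 h0 h1 h01).2 ⟨1, one_ne_zero, ?_, ?_⟩
  · rw [map_one]; exact e0
  · rw [map_one]; exact e1

end Abstract

/-! ### The `LinePic.bc` form -/

section BC

variable {κ A0 A1 A01 : Type u} [Field κ] [CommRing A0] [CommRing A1] [CommRing A01]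
  [Algebra κ A0] [Algebra κ A1] [Algebra κ A01] [Algebra A0 A01] [Algebra A1 A01]
  [IsScalarTower κ A0 A01] [IsScalarTower κ A1 A01]
  -- the component `X`
  {X0 X1 X01 : Type u} [CommRing X0] [CommRing X1] [CommRing X01]
  [Algebra κ X0] [Algebra κ X1] [Algebra κ X01] [Algebra X0 X01] [Algebra X1 X01]
  [IsScalarTower κ X0 X01] [IsScalarTower κ X1 X01]
  [Algebra A0 X0] [Algebra A1 X1] [Algebra A01 X01]
  [IsScalarTower κ A0 X0] [IsScalarTower κ A1 X1]
  -- the component `Y`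
  {Y0 Y1 Y01 : Type u} [CommRing Y0] [CommRing Y1] [CommRing Y01]
  [Algebra κ Y0] [Algebra κ Y1] [Algebra κ Y01] [Algebra Y0 Y01] [Algebra Y1 Y01]
  [IsScalarTower κ Y0 Y01] [IsScalarTower κ Y1 Y01]
  [Algebra A0 Y0] [Algebra A1 Y1] [Algebra A01 Y01]
  [IsScalarTower κ A0 Y0] [IsScalarTower κ A1 Y1]

/-- **The torus kernel is torsion when the node rings are finite** (`LinePic.bc` form): `c` a
two-chart curve over a field `κ`, `cX`, `cY` two closed sub-curves (cubes of surjective ring maps)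
which cover `c` (`ker ⊓ ker = ⊥` on the three opens), are nonempty on the chart `0` and have only
constant global functions, with FINITE node rings `A_j ⧸ (ker ⊔ ker)`.  Then a class `x` whose
restrictions to `cX` and `cY` are trivial has finite order. -/
theorem exists_pow_eq_one_of_bc
    (c : TwoChart κ A0 A1 A01) (cX : TwoChart κ X0 X1 X01) (cY : TwoChart κ Y0 Y1 Y01)
    (hX0 : (algebraMap X0 X01).comp (algebraMap A0 X0) =
      (algebraMap A01 X01).comp (algebraMap A0 A01))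
    (hX1 : (algebraMap X1 X01).comp (algebraMap A1 X1) =
      (algebraMap A01 X01).comp (algebraMap A1 A01))
    (hY0 : (algebraMap Y0 Y01).comp (algebraMap A0 Y0) =
      (algebraMap A01 Y01).comp (algebraMap A0 A01))
    (hY1 : (algebraMap Y1 Y01).comp (algebraMap A1 Y1) =
      (algebraMap A01 Y01).comp (algebraMap A1 A01))
    (sX0 : Function.Surjective (algebraMap A0 X0)) (sX1 : Function.Surjective (algebraMap A1 X1))
    (sX01 : Function.Surjective (algebraMap A01 X01))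
    (sY0 : Function.Surjective (algebraMap A0 Y0)) (sY1 : Function.Surjective (algebraMap A1 Y1))
    (sY01 : Function.Surjective (algebraMap A01 Y01))
    (hcX : Fermat.Agent.T1.Red68.H0Const cX) (hcY : Fermat.Agent.T1.Red68.H0Const cY)
    [Nontrivial X0] [Nontrivial Y0]
    (h0 : RingHom.ker (algebraMap A0 X0) ⊓ RingHom.ker (algebraMap A0 Y0) = ⊥)
    (h1 : RingHom.ker (algebraMap A1 X1) ⊓ RingHom.ker (algebraMap A1 Y1) = ⊥)
    (h01 : RingHom.ker (algebraMap A01 X01) ⊓ RingHom.ker (algebraMap A01 Y01) = ⊥)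
    [hf0 : Finite (A0 ⧸ (RingHom.ker (algebraMap A0 X0) ⊔ RingHom.ker (algebraMap A0 Y0)))]
    [hf1 : Finite (A1 ⧸ (RingHom.ker (algebraMap A1 X1) ⊔ RingHom.ker (algebraMap A1 Y1)))]
    {x : LinePic c} (hxX : LinePic.bc hX0 hX1 c cX x = 1) (hxY : LinePic.bc hY0 hY1 c cY x = 1) :
    ∃ h : ℕ, 0 < h ∧ x ^ h = 1 := by
  have hxX' : LinePic.bc hX0 hX1 c cX x⁻¹ = 1 := by rw [map_inv, hxX, inv_one]
  have hxY' : LinePic.bc hY0 hY1 c cY x⁻¹ = 1 := by rw [map_inv, hxY, inv_one]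
  have m0 : RingHom.ker (algebraMap A0 X0) * RingHom.ker (algebraMap A0 Y0) = ⊥ :=
    le_bot_iff.1 (h0 ▸ Ideal.mul_le_inf)
  have m1 : RingHom.ker (algebraMap A1 X1) * RingHom.ker (algebraMap A1 Y1) = ⊥ :=
    le_bot_iff.1 (h1 ▸ Ideal.mul_le_inf)
  haveI : Finite (A0 ⧸ ((Closed.ofCube hX0 hX1).I0 ⊔ (Closed.ofCube hY0 hY1).I0)) := hf0
  haveI : Finite (A1 ⧸ ((Closed.ofCube hX0 hX1).I1 ⊔ (Closed.ofCube hY0 hY1).I1)) := hf1
  exact exists_pow_eq_one_of_trivOn (X := Closed.ofCube hX0 hX1) (Y := Closed.ofCube hY0 hY1)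
    (Closed.h0Const_ofCube hX0 hX1 cX hcX) (Closed.h0Const_ofCube hY0 hY1 cY hcY)
    (RingHom.ker_ne_top _) (RingHom.ker_ne_top _) m0 m1 h01
    (trivOnClass_of_bc_eq_one hX0 hX1 c cX sX0 sX1 sX01 hxX)
    (trivOnClass_of_bc_eq_one hY0 hY1 c cY sY0 sY1 sY01 hxY)
    (trivOnClass_of_bc_eq_one hX0 hX1 c cX sX0 sX1 sX01 hxX')
    (trivOnClass_of_bc_eq_one hY0 hY1 c cY sY0 sY1 sY01 hxY')

/-- The same over a FINITE field with node rings finite over `κ` (e.g. finitely many nodes, each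
with finite residue field). -/
theorem exists_pow_eq_one_of_bc_of_finite [Finite κ]
    (c : TwoChart κ A0 A1 A01) (cX : TwoChart κ X0 X1 X01) (cY : TwoChart κ Y0 Y1 Y01)
    (hX0 : (algebraMap X0 X01).comp (algebraMap A0 X0) =
      (algebraMap A01 X01).comp (algebraMap A0 A01))
    (hX1 : (algebraMap X1 X01).comp (algebraMap A1 X1) =
      (algebraMap A01 X01).comp (algebraMap A1 A01))
    (hY0 : (algebraMap Y0 Y01).comp (algebraMap A0 Y0) =
      (algebraMap A01 Y01).comp (algebraMap A0 A01))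
    (hY1 : (algebraMap Y1 Y01).comp (algebraMap A1 Y1) =
      (algebraMap A01 Y01).comp (algebraMap A1 A01))
    (sX0 : Function.Surjective (algebraMap A0 X0)) (sX1 : Function.Surjective (algebraMap A1 X1))
    (sX01 : Function.Surjective (algebraMap A01 X01))
    (sY0 : Function.Surjective (algebraMap A0 Y0)) (sY1 : Function.Surjective (algebraMap A1 Y1))
    (sY01 : Function.Surjective (algebraMap A01 Y01))
    (hcX : Fermat.Agent.T1.Red68.H0Const cX) (hcY : Fermat.Agent.T1.Red68.H0Const cY)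
    [Nontrivial X0] [Nontrivial Y0]
    (h0 : RingHom.ker (algebraMap A0 X0) ⊓ RingHom.ker (algebraMap A0 Y0) = ⊥)
    (h1 : RingHom.ker (algebraMap A1 X1) ⊓ RingHom.ker (algebraMap A1 Y1) = ⊥)
    (h01 : RingHom.ker (algebraMap A01 X01) ⊓ RingHom.ker (algebraMap A01 Y01) = ⊥)
    (hf0 : Module.Finite κ
      (A0 ⧸ (RingHom.ker (algebraMap A0 X0) ⊔ RingHom.ker (algebraMap A0 Y0))))
    (hf1 : Module.Finite κ
      (A1 ⧸ (RingHom.ker (algebraMap A1 X1) ⊔ RingHom.ker (algebraMap A1 Y1))))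
    {x : LinePic c} (hxX : LinePic.bc hX0 hX1 c cX x = 1) (hxY : LinePic.bc hY0 hY1 c cY x = 1) :
    ∃ h : ℕ, 0 < h ∧ x ^ h = 1 := by
  haveI : Finite (A0 ⧸ (RingHom.ker (algebraMap A0 X0) ⊔ RingHom.ker (algebraMap A0 Y0))) :=
    Module.finite_of_finite κ
  haveI : Finite (A1 ⧸ (RingHom.ker (algebraMap A1 X1) ⊔ RingHom.ker (algebraMap A1 Y1))) :=
    Module.finite_of_finite κ
  exact exists_pow_eq_one_of_bc c cX cY hX0 hX1 hY0 hY1 sX0 sX1 sX01 sY0 sY1 sY01 hcX hcY h0 h1 h01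
    hxX hxY

end BC

end Fermat.Agent.MAZ.PicFin22
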